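import Fermat.Agent.S48.Igusa1.Genus.Tower

/-!
# S48 / IGUSA1 (c) GENUS, file `TowerB`: degrees do not increase under reduction (top step)
-/

set_option autoImplicit false
set_option linter.unusedSectionVars false

noncomputable section

namespace Fermat.Agent.S48.Igusa1

open Module IntermediateField AlgebraicCurve Fermat.Agent.Lib.RR ModularCurve
  Fermat.Agent.GAL Fermat.Agent.GAL.Gauss Fermat.Agent.S48.Full

variable {K : Type} [Field K] {A : ValuationSubring K} {M : ℕ} [NeZero M] {n : ℕ}

set_option synthInstance.maxHeartbeats 400000 in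
/-- **(T5)** `[F k : E k] ≤ [F K : E K]`.
PROOF. `finrank_le_of_res (gRing A) (gRes A) (F K).val (F k).val` with `B = E K`, `Bb = E k`
(`algebraMap` = inclusion, so `φ (algebraMap c) = c` as series: `IntermediateField.coe_inclusion`).
`hval`: `GAL.Gauss.OFK A (M * M) hMM` is a valuation subring (`ValuationSubring.mem_or_inv_mem`,
`mem_OFK_iff`); `hres`: `GAL.Gauss.gRes_mem A (M * M) hMM`; `hlift`: `Igusa1.gRes_surjective D.gh`. -/
theorem DegHyp.finrank_tower_le (D : DegHyp A M n)
    (hM : ((M : ℕ) : IsLocalRing.ResidueField ↥A) ≠ 0)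
    (hle : modularFunctionFieldFullC K (M * M) ≤ FFullC K M)
    (hle' : modularFunctionFieldFullC (IsLocalRing.ResidueField ↥A) (M * M) ≤
      FFullC (IsLocalRing.ResidueField ↥A) M) :
    letI := inclAlg hle
    letI := inclAlg hle'
    FiniteDimensional (modularFunctionFieldFullC K (M * M)) (FFullC K M) →
    finrank (modularFunctionFieldFullC (IsLocalRing.ResidueField ↥A) (M * M))
        (FFullC (IsLocalRing.ResidueField ↥A) M) ≤
      finrank (modularFunctionFieldFullC K (M * M)) (FFullC K M) := by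
  let _ := inclAlg hle
  let _ := inclAlg hle'
  intro hfd
  have hMM := natCast_sq_ne_zero A M hM
  refine finrank_le_of_res (gRing A) (gRes A)
    (B := modularFunctionFieldFullC K (M * M)) (C := FFullC K M)
    (Bb := modularFunctionFieldFullC (IsLocalRing.ResidueField ↥A) (M * M))
    (Cb := FFullC (IsLocalRing.ResidueField ↥A) M)
    (algebraMap (FFullC K M) (LaurentSeries K))
    (algebraMap (FFullC (IsLocalRing.ResidueField ↥A) M)
      (LaurentSeries (IsLocalRing.ResidueField ↥A))) ?_ ?_ ?_
  · intro c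
    exact (GAL.Gauss.OFK A (M * M) hMM).mem_or_inv_mem c
  · intro c h
    exact ⟨⟨_, GAL.Gauss.gRes_mem A (M * M) hMM ⟨_, h⟩ c.2⟩, rfl⟩
  · intro x
    obtain ⟨y, hy, hyx⟩ := Igusa1.gRes_surjective D.gh (x : LaurentSeries _) x.2
    exact ⟨⟨y, hy⟩, y.2, hyx⟩

end Fermat.Agent.S48.Igusa1
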