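import Fermat.Agent.S48.Igusa1.Genus.TowerA
import Fermat.Agent.S48.Igusa1.Genus.TowerB

/-!
# S48 / IGUSA1 (c) GENUS, file `Main`: good reduction of the full level curve

`DegHyp A M n` (sub-blocks (a), (b)) `⟹ IsFF k (FFullC k M)`, equality of genera, and INJ.
-/

set_option autoImplicit false
set_option linter.unusedSectionVars false
set_option linter.style.haveILetI false

noncomputable section

namespace Fermat.Agent.S48.Igusa1

open Module IntermediateField AlgebraicCurve Fermat.Agent.Lib.RR ModularCurve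
  Fermat.Agent.GAL Fermat.Agent.GAL.Gauss Fermat.Agent.S48.Full

section General

variable {K : Type} [Field K] {A : ValuationSubring K} {M : ℕ} [NeZero M] {n : ℕ}

theorem DegHyp.transcendental_jFk (D : DegHyp A M n) :
    Transcendental (IsLocalRing.ResidueField ↥A) (jF (IsLocalRing.ResidueField ↥A) M) := by
  have h := D.gh.trans
  rw [pA_jM] at h
  exact (transcendental_algebraMap_iff (FaithfulSMul.algebraMap_injective
    (FFullC (IsLocalRing.ResidueField ↥A) M) (LaurentSeries (IsLocalRing.ResidueField ↥A)))).mp h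

set_option synthInstance.maxHeartbeats 400000 in
theorem DegHyp.finiteDimensional_k (D : DegHyp A M n) :
    FiniteDimensional (IsLocalRing.ResidueField ↥A)⟮jF (IsLocalRing.ResidueField ↥A) M⟯
      (FFullC (IsLocalRing.ResidueField ↥A) M) :=
  Module.finite_of_finrank_pos (by rw [D.fink]; exact D.gh.pos)

set_option synthInstance.maxHeartbeats 400000 in
theorem DegHyp.finiteDimensional_K (D : DegHyp A M n) :
    FiniteDimensional K⟮jF K M⟯ (FFullC K M) :=
  Module.finite_of_finrank_pos (by rw [D.finK]; exact D.gh.pos)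

/-- `FFullC k M` is a function field. -/
theorem DegHyp.isFF_k [IsAlgClosed (IsLocalRing.ResidueField ↥A)] (D : DegHyp A M n) :
    IsFF (IsLocalRing.ResidueField ↥A) (FFullC (IsLocalRing.ResidueField ↥A) M) := by
  haveI := D.finiteDimensional_k
  haveI := D.sepk
  exact FF.isFF_of_separable (jF _ M) D.transcendental_jFk

end General

variable {A : ValuationSubring (AlgebraicClosure ℚ)} {M : ℕ} [NeZero M] {n : ℕ}

set_option synthInstance.maxHeartbeats 400000 in
set_option maxHeartbeats 1000000 in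
/-- **Equality of genera.** -/
theorem DegHyp.genusFF_eq (D : DegHyp A M n)
    (hM : ((M : ℕ) : IsLocalRing.ResidueField ↥A) ≠ 0) (hneat : 4 ∣ M ∨ 9 ∣ M) :
    genusFF (AlgebraicClosure ℚ) (FFullC (AlgebraicClosure ℚ) M) =
      genusFF (IsLocalRing.ResidueField ↥A) (FFullC (IsLocalRing.ResidueField ↥A) M) := by
  haveI := Igusa.isAlgClosed_residueField A
  have hMM := natCast_sq_ne_zero A M hM
  have hMMK : ((M * M : ℕ) : AlgebraicClosure ℚ) ≠ 0 := Nat.cast_ne_zero.mpr (NeZero.ne _)
  have hneat' : 4 ∣ M * M ∨ 9 ∣ M * M := hneat.imp (fun h => h.mul_right M) (fun h => h.mul_right M)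
  have hle := fullC_sq_le_FFullC (K := AlgebraicClosure ℚ) S24.iota M
  have hle' := D.res_le hle
  haveI := D.finiteDimensional_k
  haveI := D.finiteDimensional_K
  haveI := D.sepk
  haveI : IsFF (IsLocalRing.ResidueField ↥A) (FFullC (IsLocalRing.ResidueField ↥A) M) := D.isFF_k
  haveI : IsFF (AlgebraicClosure ℚ) (modularFunctionFieldFullC (AlgebraicClosure ℚ) (M * M)) :=
    Igusa.isFF_E (AlgebraicClosure ℚ) (M * M) hMMK
  haveI : IsFF (IsLocalRing.ResidueField ↥A)
      (modularFunctionFieldFullC (IsLocalRing.ResidueField ↥A) (M * M)) :=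
    Igusa.isFF_E (IsLocalRing.ResidueField ↥A) (M * M) hMM
  letI := inclAlg hle
  letI := inclAlg hle'
  obtain ⟨st0, -, fd0, sep0, deg0⟩ := Igusa.tower_abstract
    (modularFunctionFieldFullC (AlgebraicClosure ℚ) (M * M)) (FFullC (AlgebraicClosure ℚ) M) hle
    (jE (AlgebraicClosure ℚ) M) (jF (AlgebraicClosure ℚ) M) rfl
  obtain ⟨stp, -, fdp, sepp, degp⟩ := Igusa.tower_abstract
    (modularFunctionFieldFullC (IsLocalRing.ResidueField ↥A) (M * M))
    (FFullC (IsLocalRing.ResidueField ↥A) M) hle'
    (jE (IsLocalRing.ResidueField ↥A) M) (jF (IsLocalRing.ResidueField ↥A) M) rfl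
  have hfdE : FiniteDimensional (AlgebraicClosure ℚ)⟮jE (AlgebraicClosure ℚ) M⟯
      (modularFunctionFieldFullC (AlgebraicClosure ℚ) (M * M)) := by
    apply Module.finite_of_finrank_pos
    apply Nat.pos_of_ne_zero
    intro h0
    rw [h0, zero_mul, D.finK] at deg0
    exact D.gh.pos.ne deg0
  have hdeg : finrank (modularFunctionFieldFullC (AlgebraicClosure ℚ) (M * M))
      (FFullC (AlgebraicClosure ℚ) M) =
      finrank (modularFunctionFieldFullC (IsLocalRing.ResidueField ↥A) (M * M))
        (FFullC (IsLocalRing.ResidueField ↥A) M) := by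
    refine eq_of_mul_eq_mul (D.finrank_jE_le hM) (D.finrank_tower_le hM hle hle' fd0) ?_ ?_
    · rw [deg0, degp, D.finK, D.fink]
    · rw [deg0, D.finK]; exact D.gh.pos.ne'
  refine genus_eq_abs (E := modularFunctionFieldFullC (AlgebraicClosure ℚ) (M * M))
    (Eb := modularFunctionFieldFullC (IsLocalRing.ResidueField ↥A) (M * M)) ?_ hdeg
    (Igusa.genusFF_eq' A (M * M) hMM hneat') ?_
  · intro w
    exact ramificationIndex_FFullC M S24.iota hneat (fun x => IntermediateField.coe_inclusion _ x) w
  · exact D.gh.genusFF_le (jF _ M) (jF _ M) (iA_jM A M).symm (pA_jM A M).symm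
      (by rw [D.finK, D.fink])

/-- **INJ for the full level field.** -/
theorem DegHyp.injAt (D : DegHyp A M n)
    (hM : ((M : ℕ) : IsLocalRing.ResidueField ↥A) ≠ 0) (hneat : 4 ∣ M ∨ 9 ∣ M) :
    InjAt A (FFullC (AlgebraicClosure ℚ) M) := by
  haveI := Igusa.isAlgClosed_residueField A
  haveI := D.isFF_k
  exact D.gh.injAt (D.genusFF_eq hM hneat)

end Fermat.Agent.S48.Igusa1
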