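import Fermat.Agent.GAL.FF.RH.TameMain
import Fermat.Agent.GAL.Gauss.Level

/-!
# S48 / IGUSA1 (c) GENUS, file `Abs`: the abstract lemmas

* `genus_eq_abs`: Riemann-Hurwitz sandwich.  `F/E` unramified in characteristic zero, `Fb/Eb` of the
  same degree, `g(Eb) = g(E)`, `g(Fb) ≤ g(F)` (Deuring) `⟹ g(F) = g(Fb)`.
* `finrank_le_of_res`: degrees do not increase under reduction.
* `eq_of_mul_eq_mul`: arithmetic.
-/

set_option autoImplicit false

namespace Fermat.Agent.S48.Igusa1

open AlgebraicCurve Fermat.Agent.Lib.RR Fermat.Agent.GAL Module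

theorem genus_eq_abs {K k E F Eb Fb : Type*} [Field K] [IsAlgClosed K] [Field k] [IsAlgClosed k]
    [Field E] [Field F] [Algebra K E] [Algebra K F] [Algebra E F] [IsScalarTower K E F]
    [FiniteDimensional E F] [Algebra.IsSeparable E F] [IsFF K E] [IsFF K F]
    [Field Eb] [Field Fb] [Algebra k Eb] [Algebra k Fb] [Algebra Eb Fb] [IsScalarTower k Eb Fb]
    [FiniteDimensional Eb Fb] [Algebra.IsSeparable Eb Fb] [IsFF k Eb] [IsFF k Fb]
    (hunr : ∀ w : Place K F, w.ramificationIndex E = 1)
    (hdeg : finrank E F = finrank Eb Fb) (hgE : genusFF k Eb = genusFF K E)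
    (hle : genusFF k Fb ≤ genusFF K F) : genusFF K F = genusFF k Fb := by
  have h0 := FF.riemann_hurwitz_tame (k := K) (F := E) (F' := F) ∅ (fun w _ => hunr w)
    (fun w => by rw [hunr w]; simp)
  have hp := FF.riemann_hurwitz_le (k := k) (F := Eb) (F' := Fb) ∅
  simp only [Finset.sum_empty, add_zero] at h0 hp
  rw [← hdeg, hgE, ← h0] at hp
  omega

/-- **Degrees do not increase under reduction.**
`O ⊆ LK` a subring with a "reduction" `ρ : O → Lk`; `C/B` fields embedded in `LK`, `Cb/Bb` fields
embedded in `Lk`; `O ∩ B` is a valuation ring of `B` reducing into `Bb`; every element of `Cb` lifts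
to `O ∩ C`.
PROOF. Let `m = finrank Bb Cb`; if `m = 0` trivial; otherwise `Cb/Bb` is finite
(`Module.finite_of_finrank_pos`), take a basis `b : Fin m → Cb` (`Module.finBasis`), lifts `y i`
(`hlift`), and apply `GAL.Gauss.indep_of_res O ρ E hval' Ek hEk m z hz c hc hrel` with
`E = (φ.comp (algebraMap B C)).fieldRange`, `Ek = (φb.comp (algebraMap Bb Cb)).fieldRange`,
`z i = ⟨φ (y i), _⟩` to get `LinearIndependent B y` (`Fintype.linearIndependent_iff`, apply the
injective `φ` to a relation).  `LinearIndependent.fintype_card_le_finrank`. -/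
theorem finrank_le_of_res {LK Lk : Type*} [Field LK] [Field Lk] (O : Subring LK) (ρ : ↥O →+* Lk)
    {B C Bb Cb : Type*} [Field B] [Field C] [Algebra B C] [Field Bb] [Field Cb] [Algebra Bb Cb]
    (φ : C →+* LK) (φb : Cb →+* Lk) [FiniteDimensional B C]
    (hval : ∀ c : B, φ (algebraMap B C c) ∈ O ∨ (φ (algebraMap B C c))⁻¹ ∈ O)
    (hres : ∀ (c : B) (h : φ (algebraMap B C c) ∈ O),
      ∃ cb : Bb, ρ ⟨_, h⟩ = φb (algebraMap Bb Cb cb))
    (hlift : ∀ x : Cb, ∃ (y : C) (h : φ y ∈ O), ρ ⟨φ y, h⟩ = φb x) :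
    finrank Bb Cb ≤ finrank B C := by
  classical
  rcases Nat.eq_zero_or_pos (finrank Bb Cb) with h0 | hpos
  · rw [h0]; exact Nat.zero_le _
  have hfin : Module.Finite Bb Cb := Module.finite_of_finrank_pos hpos
  let b := Module.finBasis Bb Cb
  choose y hyO hy using fun i => hlift (b i)
  have hli : LinearIndependent B y := by
    rw [Fintype.linearIndependent_iff]
    intro g hg
    have key := GAL.Gauss.indep_of_res O ρ (φ.comp (algebraMap B C)).fieldRange
      (by
        rintro _ ⟨c, rfl⟩
        exact hval c)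
      (φb.comp (algebraMap Bb Cb)).fieldRange
      (by
        rintro ⟨_, hcO⟩ ⟨c, rfl⟩
        obtain ⟨cb, hcb⟩ := hres c hcO
        exact ⟨cb, hcb.symm⟩)
      (finrank Bb Cb) (fun i => ⟨φ (y i), hyO i⟩)
      (by
        intro c hc hrel
        choose c' hc' using hc
        have h1 : φb (∑ i, c' i • b i) = 0 := by
          rw [map_sum, ← hrel]
          refine Finset.sum_congr rfl fun i _ => ?_
          rw [Algebra.smul_def, map_mul, hy i, ← hc' i]
          rfl
        have h2 : ∑ i, c' i • b i = 0 := (map_eq_zero φb).mp h1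
        have h3 := Fintype.linearIndependent_iff.mp b.linearIndependent c' h2
        funext i
        rw [← hc' i, h3 i]
        simp)
      (fun i => φ (algebraMap B C (g i))) (fun i => ⟨g i, rfl⟩)
      (by
        have h1 : φ (∑ i, g i • y i) = 0 := by rw [hg, map_zero]
        rw [map_sum] at h1
        rw [← h1]
        refine Finset.sum_congr rfl fun i _ => ?_
        rw [Algebra.smul_def, map_mul])
    intro i
    have h1 : φ (algebraMap B C (g i)) = 0 := congrFun key i
    exact (map_eq_zero (algebraMap B C)).mp ((map_eq_zero φ).mp h1)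
  have := hli.fintype_card_le_finrank
  simpa using this

theorem eq_of_mul_eq_mul {a b a' b' : ℕ} (ha : a' ≤ a) (hb : b' ≤ b) (h : a * b = a' * b')
    (h0 : a * b ≠ 0) : b = b' := by
  have ha0 : 0 < a := Nat.pos_of_ne_zero fun h' => h0 (by rw [h', zero_mul])
  by_contra hne
  have hlt : b' < b := lt_of_le_of_ne hb (Ne.symm hne)
  have h1 : a' * b' ≤ a * b' := Nat.mul_le_mul_right _ ha
  have h2 : a * b' < a * b := Nat.mul_lt_mul_of_pos_left hlt ha0
  omega

end Fermat.Agent.S48.Igusa1
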