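import Fermat.Agent.S48.Igusa1.GRed
import Fermat.Agent.GAL.Igusa.Final

/-!
# S48 / IGUSA1 (c) GENUS, file `Red`: Deuring's inequality for a `GHyp`

Port of `GAL/Igusa/RedLevel.lean` (`exists_redDatum`) and of the first half of
`GAL/Igusa/Main.lean` (`genusFF_eq`, the `le_antisymm` branch using `genusFF_le`) to the generic
Gauss layer `GHyp A J FK Fk n` (`OF H`, `resOF H`, `resOF_surjective H`, `normalise H`,
`algebraMap_mem_OF`, `resOF_algebraMap`, `coe_resOF`, `gRes_of_eq_iA`).
-/

set_option autoImplicit false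

noncomputable section

namespace Fermat.Agent.S48.Igusa1

open Module IntermediateField AlgebraicCurve Fermat.Agent.Lib.RR ModularCurve
  Fermat.Agent.GAL Fermat.Agent.GAL.Gauss

variable {K : Type} [Field K] {A : ValuationSubring K} {J : LaurentSeries ↥A}
  {FK : IntermediateField K (LaurentSeries K)}
  {Fk : IntermediateField (IsLocalRing.ResidueField ↥A)
    (LaurentSeries (IsLocalRing.ResidueField ↥A))} {n : ℕ}

/-- The reduction datum (in the sense of `GAL/Igusa/RedDatum.lean`) of a `GHyp`; the reduction of an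
`A`-integral series is its reduction coefficient by coefficient. -/
theorem GHyp.exists_redDatum (H : GHyp A J FK Fk n) :
    ∃ D : Igusa.RedDatum K FK (IsLocalRing.ResidueField ↥A) Fk, D.A = A ∧
      ∀ (x : FK) (z : LaurentSeries ↥A), (x : LaurentSeries K) = iA A z →
        ∃ hx : x ∈ D.O, ((D.res ⟨x, hx⟩ : Fk) : LaurentSeries (IsLocalRing.ResidueField ↥A))
          = pA A z := by
  refine ⟨{ A := A
            O := OF H
            resK := IsLocalRing.residue ↥A
            resK_surj := IsLocalRing.residue_surjective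
            res := resOF H
            res_surj := resOF_surjective H
            map_mem := fun a => algebraMap_mem_OF H (a : K) a.2
            res_algebraMap := fun a => resOF_algebraMap H (a : K) a.2
            scale := ?_ }, rfl, ?_⟩
  · intro f hf
    have hf' : (f : LaurentSeries K) ≠ 0 := fun h => hf (Subtype.ext h)
    obtain ⟨a, u, ha, huF, hfu, hu⟩ := normalise H f f.2 hf'
    have hCa : (HahnSeries.C a : LaurentSeries K) ≠ 0 := by
      rw [Ne, map_eq_zero]; exact ha
    have hcoe : ((algebraMap K FK a⁻¹ * f : FK) : LaurentSeries K)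
        = (u : LaurentSeries K) := by
      rw [MulMemClass.coe_mul, coe_algebraMap_F, hfu, map_inv₀, ← mul_assoc,
        inv_mul_cancel₀ hCa, one_mul]
    have hmem : algebraMap K FK a⁻¹ * f ∈ OF H := by
      rw [mem_OF_iff, hcoe]
      exact u.2
    refine ⟨a⁻¹, inv_ne_zero ha, hmem, ?_⟩
    intro h0
    apply hu
    have h1 := congrArg Subtype.val h0
    rw [coe_resOF] at h1
    have h2 : (⟨((algebraMap K FK a⁻¹ * f : FK) : LaurentSeries K), hmem⟩ :
        ↥(gRing A)) = u := Subtype.ext hcoe
    rw [← h2]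
    exact h1
  · intro x z hxz
    have hx : x ∈ OF H := by
      rw [mem_OF_iff, hxz]
      exact iA_mem_gRing A z
    refine ⟨hx, ?_⟩
    show ((resOF H ⟨x, hx⟩ : Fk) : LaurentSeries (IsLocalRing.ResidueField ↥A)) = pA A z
    rw [coe_resOF]
    exact gRes_of_eq_iA A _ z hxz

/-- **Deuring's inequality** for the Gauss reduction.
PROOF. `D` from `exists_redDatum`; `hx`, `hres : D.res ⟨xK, hx⟩ = xk` (`Subtype.ext`);
`Igusa.genusFF_le D xK hx _ _` after transporting the instances along `hres` exactly as in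
`GAL/Igusa/Main.lean` l.85-100 (`rw [hres]`); transcendence of `xk` from `H.trans`
(`xk` transcendental in `Fk` iff its image `pA A J` is transcendental in the series field:
`transcendental_algebraMap_iff`/`IntermediateField` coe lemma). -/
theorem GHyp.genusFF_le (H : GHyp A J FK Fk n) [IsAlgClosed K]
    [IsAlgClosed (IsLocalRing.ResidueField ↥A)] [IsFF K FK]
    [IsFF (IsLocalRing.ResidueField ↥A) Fk] (xK : FK) (xk : Fk)
    (hxK : (xK : LaurentSeries K) = iA A J)
    (hxk : (xk : LaurentSeries (IsLocalRing.ResidueField ↥A)) = pA A J)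
    [FiniteDimensional K⟮xK⟯ FK] [FiniteDimensional (IsLocalRing.ResidueField ↥A)⟮xk⟯ Fk]
    [Algebra.IsSeparable K⟮xK⟯ FK] [Algebra.IsSeparable (IsLocalRing.ResidueField ↥A)⟮xk⟯ Fk]
    (hdeg : finrank K⟮xK⟯ FK = finrank (IsLocalRing.ResidueField ↥A)⟮xk⟯ Fk) :
    genusFF (IsLocalRing.ResidueField ↥A) Fk ≤ genusFF K FK := by
  obtain ⟨D, -, hD⟩ := H.exists_redDatum
  obtain ⟨hx, hres'⟩ := hD xK J hxK
  have hres : D.res ⟨xK, hx⟩ = xk := Subtype.ext (hres'.trans hxk.symm)
  have : FiniteDimensional (IsLocalRing.ResidueField ↥A)⟮D.res ⟨xK, hx⟩⟯ Fk := by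
    rw [hres]; infer_instance
  have : Algebra.IsSeparable (IsLocalRing.ResidueField ↥A)⟮D.res ⟨xK, hx⟩⟯ Fk := by
    rw [hres]; infer_instance
  refine Igusa.genusFF_le D xK hx ?_ ?_
  · rw [hres]
    intro h
    apply H.trans
    rw [← hxk]
    exact h.algebraMap (A := LaurentSeries (IsLocalRing.ResidueField ↥A))
  · rw [hres]; exact hdeg

end Fermat.Agent.S48.Igusa1
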