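import Fermat.Agent.S48.Igusa1.Genus.Abs
import Fermat.Agent.S48.Igusa1.Genus.Red
import Fermat.Agent.S48.Full.Main

/-!
# S48 / IGUSA1 (c) GENUS, file `Tower`: the tower `k(j(t^M)) ⊆ E(M²) ⊆ FFullC` in both characteristics

`E L = modularFunctionFieldFullC L (M * M)` (variable `t`), `F L = FFullC L M`.
-/

set_option autoImplicit false
set_option linter.unusedSectionVars false

noncomputable section

namespace Fermat.Agent.S48.Igusa1

open Module IntermediateField AlgebraicCurve Fermat.Agent.Lib.RR ModularCurve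
  Fermat.Agent.GAL Fermat.Agent.GAL.Gauss Fermat.Agent.S48.Full

/-- The algebra structure given by an inclusion of intermediate fields. -/
@[reducible] def inclAlg {k L : Type*} [Field k] [Field L] [Algebra k L]
    {K₁ K₂ : IntermediateField k L} (h : K₁ ≤ K₂) : Algebra K₁ K₂ :=
  (IntermediateField.inclusion h).toRingHom.toAlgebra

/-- `j(t^M)` as an element of `FFullC L M`. -/
def jF (L : Type) [Field L] (M : ℕ) [NeZero M] : FFullC L M := ⟨jM L M, jM_mem_FFullC L M⟩

/-- `j(t^M)` as an element of the `Γ₀(M²)`-field. -/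
def jE (L : Type) [Field L] (M : ℕ) [NeZero M] : modularFunctionFieldFullC L (M * M) :=
  ⟨jM L M, IntermediateField.subset_adjoin L _ (mem_divisorExpansionsC L (M * M) (Dvd.intro M rfl))⟩

/-- **The output of sub-blocks (a) (degree in characteristic `p`) and (b) (Gauss layer).** -/
structure DegHyp {K : Type} [Field K] (A : ValuationSubring K) (M : ℕ) [NeZero M] (n : ℕ) :
    Prop where
  gh : GHyp A (jM ↥A M) (FFullC K M) (FFullC (IsLocalRing.ResidueField ↥A) M) n
  finK : finrank K⟮jF K M⟯ (FFullC K M) = n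
  fink : finrank (IsLocalRing.ResidueField ↥A)⟮jF (IsLocalRing.ResidueField ↥A) M⟯
    (FFullC (IsLocalRing.ResidueField ↥A) M) = n
  sepk : Algebra.IsSeparable (IsLocalRing.ResidueField ↥A)⟮jF (IsLocalRing.ResidueField ↥A) M⟯
    (FFullC (IsLocalRing.ResidueField ↥A) M)

variable {K : Type} [Field K] (A : ValuationSubring K) (M : ℕ) [NeZero M] {n : ℕ}

theorem iA_jM (d : ℕ) [NeZero d] : iA A (jM ↥A d) = jM K d := by
  rw [jM, iA_qExpand, iA_jqModC]; rfl

theorem pA_jM (d : ℕ) [NeZero d] : pA A (jM ↥A d) = jM (IsLocalRing.ResidueField ↥A) d := by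
  rw [jM, pA_qExpand, pA_jqModC]; rfl

theorem natCast_sq_ne_zero (hM : ((M : ℕ) : IsLocalRing.ResidueField ↥A) ≠ 0) :
    ((M * M : ℕ) : IsLocalRing.ResidueField ↥A) ≠ 0 := by
  rw [Nat.cast_mul]; exact mul_ne_zero hM hM

variable {A M}

/-- **(T2) `E k ≤ F k`** by reduction.
PROOF. `adjoin_le_iff`; a generator is `jM k d = pA A (jM A d)`, `d ∣ M * M` (`pA_jM`), and
`iA A (jM A d) = jM K d ∈ E K ≤ F K` (`hle`).  `Igusa1.gRes_mem D.gh ⟨iA _, iA_mem_gRing _ _⟩ _` and
`gRes_iA`. -/
theorem DegHyp.res_le (D : DegHyp A M n)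
    (hle : modularFunctionFieldFullC K (M * M) ≤ FFullC K M) :
    modularFunctionFieldFullC (IsLocalRing.ResidueField ↥A) (M * M) ≤
      FFullC (IsLocalRing.ResidueField ↥A) M := by
  rw [modularFunctionFieldFullC, IntermediateField.adjoin_le_iff]
  rintro x ⟨d, hd0, hd, rfl⟩
  have h1 : iA A (jM ↥A d) ∈ FFullC K M := by
    rw [iA_jM]
    exact hle (IntermediateField.subset_adjoin K _ (mem_divisorExpansionsC K (M * M) hd))
  have h2 := Igusa1.gRes_mem D.gh ⟨iA A (jM ↥A d), iA_mem_gRing A _⟩ h1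
  rw [gRes_iA, pA_jM] at h2
  exact h2

end Fermat.Agent.S48.Igusa1
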