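import Fermat.Agent.S48.Igusa1.Genus.Tower

/-!
# S48 / IGUSA1 (c) GENUS, file `TowerA`: degrees do not increase under reduction (bottom step)
-/

set_option autoImplicit false
set_option linter.unusedSectionVars false

noncomputable section

namespace Fermat.Agent.S48.Igusa1

open Module IntermediateField AlgebraicCurve Fermat.Agent.Lib.RR ModularCurve
  Fermat.Agent.GAL Fermat.Agent.GAL.Gauss Fermat.Agent.S48.Full

variable {K : Type} [Field K] {A : ValuationSubring K} {M : ℕ} [NeZero M] {n : ℕ}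

theorem TowerA_map_adjoin {L Ω : Type*} [Field L] [Field Ω] [Algebra L Ω]
    (F : IntermediateField L Ω) (x : F) : (L⟮x⟯).map F.val = L⟮(x : Ω)⟯ := by
  rw [IntermediateField.adjoin_map, Set.image_singleton]
  rfl

set_option synthInstance.maxHeartbeats 400000 in
/-- **(T4)** `[E k : k(j(t^M))] ≤ [E K : K(j(t^M))]`.
PROOF. `finrank_le_of_res (gRing A) (gRes A) (E K).val (E k).val` with `B = K⟮jE K M⟯`,
`Bb = k⟮jE k M⟯`.  The image in the series field of `c ∈ K⟮jE K M⟯` lies in
`adjoin K {jM K M} = adjoin K {iA A (jM A M)}` (`IntermediateField.adjoin_map`/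
`IntermediateField.lift`, or induction `adjoin_induction`), so `hval` is `rat_val A (jM A M) hJ`,
`hres` is `rat_res` (and conversely an element of `adjoin k {jM k M}` comes from `k⟮jE k M⟯`),
`hJ = D.gh.trans`.  `hlift` is `GAL.Gauss.gRes_surjective A (M * M) hMM`. -/
theorem DegHyp.finrank_jE_le (D : DegHyp A M n)
    (hM : ((M : ℕ) : IsLocalRing.ResidueField ↥A) ≠ 0)
    [FiniteDimensional K⟮jE K M⟯ (modularFunctionFieldFullC K (M * M))] :
    finrank (IsLocalRing.ResidueField ↥A)⟮jE (IsLocalRing.ResidueField ↥A) M⟯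
        (modularFunctionFieldFullC (IsLocalRing.ResidueField ↥A) (M * M)) ≤
      finrank K⟮jE K M⟯ (modularFunctionFieldFullC K (M * M)) := by
  have hMM := natCast_sq_ne_zero A M hM
  have hJ := D.gh.trans
  have hmemK : ∀ c : K⟮jE K M⟯, (((c : modularFunctionFieldFullC K (M * M))) : LaurentSeries K) ∈
      IntermediateField.adjoin K {iA A (jM ↥A M)} := by
    intro c
    rw [iA_jM]
    have h := TowerA_map_adjoin (modularFunctionFieldFullC K (M * M)) (jE K M)
    have h2 : (((c : modularFunctionFieldFullC K (M * M))) : LaurentSeries K) ∈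
        (K⟮jE K M⟯).map (modularFunctionFieldFullC K (M * M)).val := ⟨_, c.2, rfl⟩
    rw [h] at h2
    exact h2
  refine finrank_le_of_res (gRing A) (gRes A)
    (algebraMap (modularFunctionFieldFullC K (M * M)) (LaurentSeries K))
    (algebraMap (modularFunctionFieldFullC (IsLocalRing.ResidueField ↥A) (M * M))
      (LaurentSeries (IsLocalRing.ResidueField ↥A))) ?_ ?_ ?_
  · intro c
    exact rat_val A (jM ↥A M) hJ _ (hmemK c)
  · intro c h
    have h1 := rat_res A (jM ↥A M) hJ ⟨_, h⟩ (hmemK c)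
    rw [pA_jM] at h1
    have h2 := TowerA_map_adjoin (modularFunctionFieldFullC (IsLocalRing.ResidueField ↥A) (M * M))
      (jE (IsLocalRing.ResidueField ↥A) M)
    have h3 : gRes A ⟨_, h⟩ ∈ ((IsLocalRing.ResidueField ↥A)⟮jE (IsLocalRing.ResidueField ↥A) M⟯).map
        (modularFunctionFieldFullC (IsLocalRing.ResidueField ↥A) (M * M)).val := by
      rw [h2]
      exact h1
    obtain ⟨cb, hcb, e⟩ := h3
    exact ⟨⟨cb, hcb⟩, e.symm⟩
  · intro x
    obtain ⟨y, hy, e⟩ := GAL.Gauss.gRes_surjective A (M * M) hMM x x.2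
    exact ⟨⟨y, hy⟩, y.2, e⟩

end Fermat.Agent.S48.Igusa1
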